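import Fermat.Agent.SchmidtGames.Avoidance
import Fermat.Agent.SchmidtGames.Dimension
import Fermat.Agent.SchmidtGames.UnitForms
import Mathlib.Combinatorics.SimpleGraph.Coloring.Vertex

/-!
# Lacunary sequences

If `w (n + 1) ≥ q w n` with `q > 1`, the numbers whose products with the `w n` keep away from
given targets modulo one form a winning set; with target `0` such a number colours the graph
on the reals with edges at the distances `w n` by finitely many colours.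
-/

set_option autoImplicit false

noncomputable section

open Finset

namespace FA.Lacunary

open FA.SchmidtGames

theorem pow_mul_le_of_ratio {q : ℝ} (hq : 0 ≤ q) {w : ℕ → ℝ}
    (hw : ∀ n, q * w n ≤ w (n + 1)) : ∀ n, q ^ n * w 0 ≤ w n
  | 0 => by simp
  | n + 1 => by
    rw [pow_succ', mul_assoc]
    exact (mul_le_mul_of_nonneg_left (pow_mul_le_of_ratio hq hw n) hq).trans (hw n)

variable {X : Type*} [NormedAddCommGroup X] [NormedSpace ℝ X]

/-- **Lacunary families of forms avoid any targets on a winning set.** -/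
theorem isWinning_lacunary {q : ℝ} (hq : 1 < q) {w : ℕ → ℝ} (hw0 : 0 < w 0)
    (hw : ∀ n, q * w n ≤ w (n + 1)) {V : Finset X} (hV : ∀ v ∈ V, ‖v‖ ≤ 1)
    {φ : ℕ → X →ₗ[ℝ] ℝ} (hφ : ∀ k x, |φ k x| ≤ ‖x‖)
    (hcov : ∀ k, (∃ v ∈ V, φ k v = 1) ∧ ∃ v ∈ V, φ k v = -1) (y : ℕ → ℝ) {α : ℝ} (hα : 0 < α)
    (hα2 : α ≤ 1 / 2) :
    IsWinning α {x : X | ∃ c : ℝ, 0 < c ∧ ∀ n, ∀ m : ℤ, c ≤ |w n * φ n x - y n - m|} := by
  classical
  have hwp : ∀ n, 0 < w n := fun n => lt_of_lt_of_le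
    (mul_pos (pow_pos (zero_lt_one.trans hq) n) hw0)
    (pow_mul_le_of_ratio (zero_le_one.trans hq.le) hw n)
  obtain ⟨s, hs⟩ := pow_unbounded_of_one_lt (w 0) hq
  have hex : ∀ n, ∃ k, w n ≤ w 0 * q ^ k := fun n => by
    obtain ⟨k, hk⟩ := pow_unbounded_of_one_lt (w n / w 0) hq
    rw [div_lt_iff₀ hw0] at hk
    exact ⟨k, by linarith⟩
  set K : ℕ → ℕ := fun n => Nat.find (hex n) with hK
  have hK1 : ∀ n, w n ≤ w 0 * q ^ K n := fun n => Nat.find_spec (hex n)
  have hK2 : ∀ n, w 0 * q ^ K n ≤ q * w n := fun n => by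
    rcases Nat.eq_zero_or_pos (K n) with h0 | h0
    · rw [h0, pow_zero, mul_one]
      refine le_trans ?_ (le_mul_of_one_le_left (hwp n).le hq.le)
      exact le_trans (le_mul_of_one_le_left hw0.le (one_le_pow₀ hq.le))
        (pow_mul_le_of_ratio (zero_le_one.trans hq.le) hw n)
    · obtain ⟨j, hj⟩ := Nat.exists_eq_succ_of_ne_zero h0.ne'
      have := not_le.1 (Nat.find_min (hex n) (show j < K n by omega))
      rw [hj, pow_succ']
      linarith [mul_le_mul_of_nonneg_left this.le (zero_le_one.trans hq.le)]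
  have hKmono : StrictMono fun n => K n + s := by
    refine strictMono_nat_of_lt_succ fun n => Nat.add_lt_add_right ?_ s
    refine lt_of_not_ge fun hle => ?_
    rcases Nat.eq_zero_or_pos (K n) with h0 | h0
    · have h1 := hK1 (n + 1)
      rw [show K (n + 1) = 0 by omega, pow_zero, mul_one] at h1
      have h2 := (pow_mul_le_of_ratio (zero_le_one.trans hq.le) hw (n + 1)).trans h1
      have h3 : 1 < q ^ (n + 1) := one_lt_pow₀ hq n.succ_ne_zero
      linarith [mul_lt_mul_of_pos_right h3 hw0]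
    · obtain ⟨j, hj⟩ := Nat.exists_eq_succ_of_ne_zero h0.ne'
      have h2 := mul_lt_mul_of_pos_left (not_le.1 (Nat.find_min (hex n) (show j < K n by omega)))
        (zero_lt_one.trans hq)
      have h3 : q * (w 0 * q ^ j) = w 0 * q ^ K n := by rw [hj, pow_succ']; ring
      have h4 : w 0 * q ^ K (n + 1) ≤ w 0 * q ^ K n :=
        mul_le_mul_of_nonneg_left (pow_le_pow_right₀ hq.le hle) hw0.le
      linarith [hw n, hK1 (n + 1)]
  set φ' : ℕ → X →ₗ[ℝ] ℝ := Function.extend (fun n => K n + s) φ (fun _ => φ 0) with hφ'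
  have hφ'eq : ∀ k, ∃ n, φ' k = φ n := fun k => by
    by_cases h : ∃ n, K n + s = k
    · obtain ⟨n, rfl⟩ := h
      exact ⟨n, hKmono.injective.extend_apply _ _ _⟩
    · exact ⟨0, Function.extend_apply' _ _ _ h⟩
  set Z : ℕ → Set ℝ := fun k => {z | ∃ n, K n + s = k ∧ ∃ m : ℤ, z = (y n + m) / w n} with hZ
  refine (isWinning_avoidPlanes hq hV (φ := φ') (fun k x => ?_) (fun k => ?_) (Z := Z) ?_ hα
    hα2).mono fun x hx => ?_
  · obtain ⟨n, hn⟩ := hφ'eq k
    rw [hn]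
    exact hφ n x
  · obtain ⟨n, hn⟩ := hφ'eq k
    rw [hn]
    exact hcov n
  · rintro k _ ⟨n, hn, m, rfl⟩ _ ⟨n', hn', m', rfl⟩ hne
    obtain rfl : n = n' := hKmono.injective (hn.trans hn'.symm)
    rw [← sub_div, add_sub_add_left_eq_sub, abs_div, abs_of_pos (hwp n), ← hn]
    have hmm : m - m' ≠ 0 := sub_ne_zero.2 fun e => hne (by rw [e])
    have h1 : (1 : ℝ) ≤ |(m : ℝ) - m'| := by exact_mod_cast Int.one_le_abs hmm
    refine div_le_div₀ (abs_nonneg _) h1 (hwp n) ((hK1 n).trans ?_)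
    rw [pow_add, mul_comm (q ^ K n)]
    exact mul_le_mul_of_nonneg_right hs.le (pow_nonneg (zero_le_one.trans hq.le) _)
  · obtain ⟨c, hc, h⟩ := hx
    have hqs : 0 < q ^ s := pow_pos (zero_lt_one.trans hq) s
    refine ⟨c * w 0 / (q * q ^ s), div_pos (mul_pos hc hw0) (by positivity), fun n m => ?_⟩
    have hk := h (K n + s) _ ⟨n, rfl, m, rfl⟩
    rw [hφ', hKmono.injective.extend_apply,
      show φ n x - (y n + m) / w n = (w n * φ n x - y n - m) / w n by
        field_simp [(hwp n).ne']; ring,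
      abs_div, abs_of_pos (hwp n), le_div_iff₀ (hwp n)] at hk
    refine le_trans ?_ hk
    rw [pow_add, div_mul_eq_mul_div, div_le_div_iff₀ (by positivity) (by positivity)]
    have := mul_le_mul_of_nonneg_left (hK2 n) (mul_nonneg hc.le hqs.le)
    linarith

/-- Lacunary sequences of reals. -/
theorem isWinning_lacunary_real {q : ℝ} (hq : 1 < q) {t : ℕ → ℝ} (ht0 : 0 < t 0)
    (ht : ∀ n, q * t n ≤ t (n + 1)) (y : ℕ → ℝ) {α : ℝ} (hα : 0 < α) (hα2 : α ≤ 1 / 2) :
    IsWinning α {x : ℝ | ∃ c : ℝ, 0 < c ∧ ∀ n, ∀ m : ℤ, c ≤ |t n * x - y n - m|} :=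
  isWinning_lacunary hq ht0 ht (V := ({1, -1} : Finset ℝ)) (φ := fun _ => LinearMap.id)
    (fun v hv => by
      rcases mem_insert.1 hv with rfl | hv
      · simp
      · simp [mem_singleton.1 hv])
    (fun _ x => le_of_eq (Real.norm_eq_abs x).symm)
    (fun _ => ⟨⟨1, by simp, rfl⟩, ⟨-1, by simp, rfl⟩⟩) y hα hα2

/-- Lacunary sequences of linear forms on `ℝ ^ d`, measured by the sums of the `|a n i|`. -/
theorem isWinning_lacunary_forms {d : ℕ} {q : ℝ} (hq : 1 < q) {a : ℕ → Fin d → ℝ}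
    (ha0 : a 0 ≠ 0) (ha : ∀ n, q * ∑ i, |a n i| ≤ ∑ i, |a (n + 1) i|) (y : ℕ → ℝ) {α : ℝ}
    (hα : 0 < α) (hα2 : α ≤ 1 / 2) :
    IsWinning α {x : Fin d → ℝ | ∃ c : ℝ, 0 < c ∧
      ∀ n, ∀ m : ℤ, c ≤ |∑ i, a n i * x i - y n - m|} := by
  classical
  have h0 : 0 < ∑ i, |a 0 i| := by
    obtain ⟨i, hi⟩ := Function.ne_iff.1 ha0
    exact sum_pos' (fun k _ => abs_nonneg _) ⟨i, mem_univ _, abs_pos.2 hi⟩
  have hp : ∀ n, 0 < ∑ i, |a n i| := fun n =>
    (mul_pos (pow_pos (zero_lt_one.trans hq) n) h0).trans_le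
      (pow_mul_le_of_ratio (w := fun n => ∑ i, |a n i|) (zero_le_one.trans hq.le) ha n)
  refine (isWinning_lacunary hq (w := fun n => ∑ i, |a n i|) h0 ha
    (V := univ.image signVec) (φ := fun n => unitForm (a n)) (fun v hv => ?_)
    (fun n x => abs_unitForm_le (hp n) x) (fun n => ?_) y hα hα2).mono fun x hx => ?_
  · obtain ⟨w, -, rfl⟩ := mem_image.1 hv
    exact norm_signVec_le w
  · obtain ⟨⟨v, hv⟩, w, hw⟩ := exists_signVec (hp n)
    exact ⟨⟨_, mem_image_of_mem _ (mem_univ v), hv⟩, _, mem_image_of_mem _ (mem_univ w), hw⟩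
  · obtain ⟨c, hc, h⟩ := hx
    refine ⟨c, hc, fun n m => (h n m).trans_eq ?_⟩
    rw [unitForm_apply, mul_div_cancel₀ _ (hp n).ne']

/-- The graph with edges at the distances `t n`. -/
def distanceGraph (t : ℕ → ℝ) : SimpleGraph ℝ :=
  SimpleGraph.fromRel fun u v => ∃ n, v - u = t n

/-- **Katznelson's theorem.** The graph of a lacunary set of distances has finite chromatic
number. -/
theorem exists_colorable {q : ℝ} (hq : 1 < q) {t : ℕ → ℝ} (ht0 : 0 < t 0)
    (ht : ∀ n, q * t n ≤ t (n + 1)) : ∃ k, (distanceGraph t).Colorable k := by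
  obtain ⟨θ, c, hc, h⟩ : {x : ℝ | ∃ c : ℝ, 0 < c ∧
      ∀ n, ∀ m : ℤ, c ≤ |t n * x - (fun _ => 0 : ℕ → ℝ) n - m|}.Nonempty := by
    refine Set.nonempty_iff_ne_empty.2 fun he => ?_
    have hd := dimH_of_isWinning one_half_pos one_half_lt_one
      (isWinning_lacunary_real hq ht0 ht (fun _ => 0) one_half_pos le_rfl)
    rw [he, dimH_empty] at hd
    exact zero_ne_one hd
  obtain ⟨N, hN⟩ := exists_nat_gt (1 / c)
  have hN0 : (0 : ℝ) < N := lt_trans (by positivity) hN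
  have hlt : ∀ u : ℝ, ⌊Int.fract (θ * u) * N⌋₊ < N := fun u => by
    rw [Nat.floor_lt (mul_nonneg (Int.fract_nonneg _) hN0.le)]
    exact mul_lt_of_lt_one_left hN0 (Int.fract_lt_one _)
  refine ⟨N, ⟨SimpleGraph.Coloring.mk (fun u : ℝ => (⟨_, hlt u⟩ : Fin N)) ?_⟩⟩
  intro u v huv heq
  have hv : ⌊Int.fract (θ * u) * N⌋₊ = ⌊Int.fract (θ * v) * N⌋₊ := congrArg Fin.val heq
  have h0 : ∀ u : ℝ, 0 ≤ Int.fract (θ * u) * N := fun u =>
    mul_nonneg (Int.fract_nonneg _) hN0.le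
  have hfl : |Int.fract (θ * u) * N - Int.fract (θ * v) * N| < 1 :=
    Int.abs_sub_lt_one_of_floor_eq_floor (by
      rw [← Int.natCast_floor_eq_floor (h0 u), ← Int.natCast_floor_eq_floor (h0 v), hv])
  rw [← sub_mul, abs_mul, abs_of_pos hN0, ← lt_div_iff₀ hN0] at hfl
  rw [div_lt_iff₀ hc] at hN
  have hsmall : |Int.fract (θ * u) - Int.fract (θ * v)| < c := hfl.trans_le (by
    rw [div_le_iff₀ hN0]
    linarith)
  obtain ⟨-, ⟨n, hn⟩ | ⟨n, hn⟩⟩ := huv
  · have h1 := h n (⌊θ * v⌋ - ⌊θ * u⌋)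
    rw [← hn] at h1
    rw [abs_sub_comm] at hsmall
    refine absurd h1 (not_le.2 (lt_of_eq_of_lt (congrArg abs ?_) hsmall))
    simp only [Int.fract, Int.cast_sub]
    ring
  · have h1 := h n (⌊θ * u⌋ - ⌊θ * v⌋)
    rw [← hn] at h1
    refine absurd h1 (not_le.2 (lt_of_eq_of_lt (congrArg abs ?_) hsmall))
    simp only [Int.fract, Int.cast_sub]
    ring

end FA.Lacunary
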